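import Mathlib

/-!
# Row LT, tower T3, sub-leaf T3.17 (helper614): the Abel transform on `ℍ³` and its inverse

OFF-MAIN.  Mathlib only.  Complete proofs, nothing assumed.

`ℍ³ = GL₂(ℂ) / ℂˣ U(2)`.  A bi-`U(2)`-invariant function on `GL₂(ℂ)` which is invariant under
the centre is a function of `chD614 g = ‖g‖²_HS / (2 |det g|) = cosh d(o, g o)`.

* `integral_complex_affine_sq614` : `∫_ℂ ρ(A + B |x|²) dx = (π / B) ∫_A^∞ ρ(c) dc`;
* `IsEvenTest614 E R` : `E` is `C²`, even, supported in `[-R, R]`;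
* `abelInv614 E` : the inverse Abel transform `ρ(cosh r) = - E'(r) / (2π sinh r)`,
  `ρ(1) = - E''(0) / (2π)` (Helgason, *Groups and Geometric Analysis*, Ch. IV; Lindenstrauss--
  Venkatesh, GAFA 17 (2007), §4), as a function of `c = cosh r`;
* `IsEvenTest614.continuous_abelInv`, `IsEvenTest614.abelInv_eq_zero` (support);
* `IsEvenTest614.abel_transform` : `2π ∫_{cosh u}^∞ ρ(c) dc = E(u)`;
* `IsEvenTest614.spherical_zero` : `4π ∫_0^∞ ρ(cosh r) (r / sinh r) sinh² r dr = ∫_ℝ E`;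
* `chD614` and its invariance under `U(2)` (both sides) and the centre, `1 ≤ chD614`;
* `chD614_upper` : the value on `n(x) diag(t₁, t₂)`;
* `IsEvenTest614.abel_unipotent` : `∫_ℂ ρ(chD614 (n(x) diag(t₁,t₂))) dx = |t₁/t₂| E(log |t₁/t₂|)`,
  i.e. the Satake transform `δ^{-1/2}(t) ∫_N f(n t) dn` of `f = ρ ∘ chD614` is `E`
  (`δ(t) = |t₁/t₂|²` is the module of `ℂ`).
-/

set_option autoImplicit false

open MeasureTheory Set Real Filter Topology
open scoped Matrix ComplexConjugate

namespace Fermat.Agent.LT.T3.H614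

theorem integral_complex_radial614 {E : Type*} [NormedAddCommGroup E] [NormedSpace ℝ E]
    (g : ℝ → E) :
    ∫ x : ℂ, g ‖x‖ = (2 * π) • ∫ r in Ioi (0 : ℝ), r • g r := by
  rw [← Complex.integral_comp_polarCoord_symm]
  have h1 : ∀ p ∈ polarCoord.target, p.1 • g ‖Complex.polarCoord.symm p‖ = p.1 • g p.1 := by
    intro p hp
    rw [Complex.norm_polarCoord_symm, abs_of_pos]
    rw [polarCoord_target] at hp
    exact hp.1
  rw [setIntegral_congr_fun polarCoord.open_target.measurableSet h1]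
  rw [polarCoord_target]
  have h2 : (volume : Measure (ℝ × ℝ)).restrict (Ioi 0 ×ˢ Ioo (-π) π)
      = ((volume : Measure ℝ).restrict (Ioi 0)).prod ((volume : Measure ℝ).restrict (Ioo (-π) π)) := by
    rw [Measure.prod_restrict]; rfl
  rw [h2, integral_fun_fst (fun r => r • g r)]
  congr 1
  simp only [Measure.real, Measure.restrict_apply MeasurableSet.univ, univ_inter, Real.volume_Ioo]
  rw [ENNReal.toReal_ofReal (by linarith [Real.pi_pos])]
  ring

theorem integral_Ioi_comp_add614 {E : Type*} [NormedAddCommGroup E] [NormedSpace ℝ E]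
    (g : ℝ → E) (A a : ℝ) :
    ∫ y in Ioi a, g (A + y) = ∫ c in Ioi (A + a), g c := by
  have h : MeasurableEmbedding (fun y : ℝ => A + y) := (Homeomorph.addLeft A).measurableEmbedding
  have hmp : MeasurePreserving (fun y : ℝ => A + y) volume volume :=
    measurePreserving_add_left volume A
  have := hmp.setIntegral_preimage_emb h g (Ioi (A + a))
  rw [← this]
  congr 1
  ext y
  simp

/-- `∫_ℂ ρ(A + B |x|²) dx = (π / B) ∫_A^∞ ρ(c) dc` for `B > 0` (no integrability hypothesis). -/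
theorem integral_complex_affine_sq614 {E : Type*} [NormedAddCommGroup E] [NormedSpace ℝ E]
    (ρ : ℝ → E) (A : ℝ) {B : ℝ} (hB : 0 < B) :
    ∫ x : ℂ, ρ (A + B * ‖x‖ ^ 2) = (π / B) • ∫ c in Ioi A, ρ c := by
  rw [integral_complex_radial614 (fun r => ρ (A + B * r ^ 2))]
  have h2 := integral_comp_rpow_Ioi_of_pos (g := fun y => ρ (A + B * y)) (p := 2) (by norm_num)
  have h2' : ∫ x in Ioi (0 : ℝ), (2 : ℝ) • (x • ρ (A + B * x ^ 2)) = ∫ y in Ioi (0 : ℝ), ρ (A + B * y) := by
    rw [← h2]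
    refine setIntegral_congr_fun measurableSet_Ioi (fun x hx => ?_)
    have hx0 : (0 : ℝ) < x := hx
    rw [smul_smul]
    have e1 : x ^ ((2 : ℝ) - 1) = x := by
      have : ((2 : ℝ) - 1) = 1 := by norm_num
      rw [this, Real.rpow_one]
    have e2 : x ^ (2 : ℝ) = x ^ 2 := by
      rw [← Real.rpow_natCast]; norm_num
    rw [e1, e2]
  rw [integral_smul] at h2'
  have h3 := integral_comp_mul_left_Ioi (fun y => ρ (A + y)) 0 hB
  simp only [mul_zero] at h3
  have h4 := integral_Ioi_comp_add614 ρ A 0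
  simp only [add_zero] at h4
  have h5 : ∫ r in Ioi (0 : ℝ), r • ρ (A + B * r ^ 2) = (2 : ℝ)⁻¹ • (B⁻¹ • ∫ c in Ioi A, ρ c) := by
    rw [← h4, ← h3, ← h2', smul_smul]
    norm_num
  rw [h5, smul_smul, smul_smul]
  congr 1
  field_simp

/-- An even `C²` test function on the line, supported in `[-R, R]`. -/
structure IsEvenTest614 (E : ℝ → ℂ) (R : ℝ) : Prop where
  smooth : ContDiff ℝ 2 E
  even : ∀ u, E (-u) = E u
  supp : ∀ u, R ≤ |u| → E u = 0

/-- The inverse Abel transform on `ℍ³`, as a function of `c = cosh r`: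
`ρ(cosh r) = - E'(r) / (2π sinh r)`, `ρ(1) = - E''(0) / (2π)`. -/
noncomputable def abelInv614 (E : ℝ → ℂ) (c : ℝ) : ℂ :=
  if c ≤ 1 then (-(2 * π)⁻¹ : ℝ) • deriv (deriv E) 0
  else (-(2 * π * √(c ^ 2 - 1))⁻¹ : ℝ) • deriv E (arcosh c)

variable {E : ℝ → ℂ} {R : ℝ}

theorem IsEvenTest614.differentiable (h : IsEvenTest614 E R) : Differentiable ℝ E :=
  h.smooth.differentiable (by norm_num)

theorem IsEvenTest614.contDiff_deriv (h : IsEvenTest614 E R) : ContDiff ℝ 1 (deriv E) := by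
  have := h.smooth
  have h2 : ((1 : ℕ∞) + 1 : WithTop ℕ∞) = 2 := by norm_num
  rw [← h2] at this
  exact (contDiff_succ_iff_deriv.1 this).2.2

theorem IsEvenTest614.continuous_deriv (h : IsEvenTest614 E R) : Continuous (deriv E) :=
  h.contDiff_deriv.continuous

theorem IsEvenTest614.differentiable_deriv (h : IsEvenTest614 E R) :
    Differentiable ℝ (deriv E) :=
  h.contDiff_deriv.differentiable (by norm_num)

theorem IsEvenTest614.deriv_zero (h : IsEvenTest614 E R) : deriv E 0 = 0 := by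
  have h1 : (fun u => E (-u)) = E := funext h.even
  have h2 : deriv (fun u => E (-u)) 0 = -deriv E (-0) := deriv_comp_neg E 0
  rw [h1, neg_zero] at h2
  have h3 : (2 : ℂ) * deriv E 0 = 0 := by
    have : deriv E 0 + deriv E 0 = 0 := by
      nth_rewrite 1 [h2]; simp
    rw [two_mul]; exact this
  simpa using h3

/-- `E'(r) / sinh r → E''(0)` as `r → 0`, `r ≠ 0`. -/
theorem IsEvenTest614.tendsto_deriv_div_sinh (h : IsEvenTest614 E R) :
    Tendsto (fun r : ℝ => (sinh r)⁻¹ • deriv E r) (𝓝[≠] 0) (𝓝 (deriv (deriv E) 0)) := by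
  have hD : HasDerivAt (deriv E) (deriv (deriv E) 0) 0 :=
    (h.differentiable_deriv 0).hasDerivAt
  have hs : HasDerivAt sinh (cosh 0) 0 := Real.hasDerivAt_sinh 0
  rw [hasDerivAt_iff_tendsto_slope] at hD hs
  rw [Real.cosh_zero] at hs
  have hs' : Tendsto (fun r => (slope sinh 0 r)⁻¹) (𝓝[≠] 0) (𝓝 1) := by
    simpa using hs.inv₀ one_ne_zero
  have := hs'.smul hD
  rw [one_smul] at this
  refine this.congr' ?_
  filter_upwards [self_mem_nhdsWithin] with r hr
  have hr0 : r ≠ 0 := hr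
  simp only [slope, vsub_eq_sub, sub_zero, Real.sinh_zero, h.deriv_zero, smul_eq_mul]
  rw [smul_smul]
  congr 1
  field_simp

theorem abelInv614_of_le {c : ℝ} (hc : c ≤ 1) :
    abelInv614 E c = (-(2 * π)⁻¹ : ℝ) • deriv (deriv E) 0 := by
  simp [abelInv614, hc]

theorem abelInv614_of_lt {c : ℝ} (hc : 1 < c) :
    abelInv614 E c = (-(2 * π * √(c ^ 2 - 1))⁻¹ : ℝ) • deriv E (arcosh c) := by
  simp [abelInv614, not_le.2 hc]

theorem abelInv614_cosh {r : ℝ} (hr : 0 < r) :
    abelInv614 E (cosh r) = (-(2 * π * sinh r)⁻¹ : ℝ) • deriv E r := by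
  have h1 : 1 < cosh r := Real.one_lt_cosh.2 hr.ne'
  rw [abelInv614_of_lt h1, Real.arcosh_cosh hr.le]
  have h2 : √(cosh r ^ 2 - 1) = sinh r := by
    rw [← Real.sinh_arcosh h1.le, Real.arcosh_cosh hr.le]
  rw [h2]

theorem tendsto_arcosh_nhdsGT614 : Tendsto arcosh (𝓝[>] 1) (𝓝[≠] 0) := by
  apply tendsto_nhdsWithin_of_tendsto_nhds_of_eventually_within
  · have h := Real.continuousOn_arcosh 1 (by simp)
    have h' : Tendsto arcosh (𝓝[Ici 1] 1) (𝓝 (arcosh 1)) := h
    rw [Real.arcosh_zero] at h'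
    exact h'.mono_left (nhdsWithin_mono _ Ioi_subset_Ici_self)
  · filter_upwards [self_mem_nhdsWithin] with c hc
    exact (Real.arcosh_pos hc).ne'

theorem IsEvenTest614.continuous_abelInv (h : IsEvenTest614 E R) :
    Continuous (abelInv614 E) := by
  rw [continuous_iff_continuousAt]
  intro c
  rcases lt_trichotomy c 1 with hc | hc | hc
  · -- locally constant
    have : abelInv614 E =ᶠ[𝓝 c] fun _ => (-(2 * π)⁻¹ : ℝ) • deriv (deriv E) 0 := by
      filter_upwards [Iio_mem_nhds hc] with x hx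
      exact abelInv614_of_le (le_of_lt hx)
    exact (continuousAt_const.congr this.symm)
  · subst hc
    rw [continuousAt_iff_continuous_left'_right']
    constructor
    · have : abelInv614 E =ᶠ[𝓝[<] 1] fun _ => (-(2 * π)⁻¹ : ℝ) • deriv (deriv E) 0 := by
        filter_upwards [self_mem_nhdsWithin] with x hx
        exact abelInv614_of_le (le_of_lt hx)
      have h1 : abelInv614 E 1 = (-(2 * π)⁻¹ : ℝ) • deriv (deriv E) 0 :=
        abelInv614_of_le le_rfl
      unfold ContinuousWithinAt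
      rw [h1]
      exact tendsto_const_nhds.congr' this.symm
    · have h1 : abelInv614 E 1 = (-(2 * π)⁻¹ : ℝ) • deriv (deriv E) 0 :=
        abelInv614_of_le le_rfl
      unfold ContinuousWithinAt
      rw [h1]
      have ht := (h.tendsto_deriv_div_sinh.comp tendsto_arcosh_nhdsGT614).const_smul
        (-(2 * π)⁻¹ : ℝ)
      refine ht.congr' ?_
      filter_upwards [self_mem_nhdsWithin] with x hx
      have hx1 : (1 : ℝ) < x := hx
      rw [abelInv614_of_lt hx1]
      simp only [Function.comp_apply]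
      rw [Real.sinh_arcosh hx1.le, smul_smul]
      congr 1
      rw [mul_inv]
      ring
  · -- smooth region
    have : abelInv614 E =ᶠ[𝓝 c]
        fun x => (-(2 * π * √(x ^ 2 - 1))⁻¹ : ℝ) • deriv E (arcosh x) := by
      filter_upwards [Ioi_mem_nhds hc] with x hx
      exact abelInv614_of_lt hx
    refine ContinuousAt.congr ?_ this.symm
    have hpos : 0 < c ^ 2 - 1 := by nlinarith
    have h1 : ContinuousAt (fun x : ℝ => (-(2 * π * √(x ^ 2 - 1))⁻¹ : ℝ)) c := by
      apply ContinuousAt.neg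
      apply ContinuousAt.inv₀
      · fun_prop
      · have : 0 < √(c ^ 2 - 1) := Real.sqrt_pos.2 hpos
        positivity
    have h2 : ContinuousAt (fun x : ℝ => deriv E (arcosh x)) c :=
      (h.continuous_deriv.continuousAt).comp
        ((Real.differentiableAt_arcosh hc).continuousAt)
    exact h1.smul h2

/-- `E' = 0` outside `(-R, R)`... on `{R < |u|}`. -/
theorem IsEvenTest614.deriv_eq_zero (h : IsEvenTest614 E R) {u : ℝ} (hu : R < |u|) :
    deriv E u = 0 := by
  have : E =ᶠ[𝓝 u] fun _ => (0 : ℂ) := by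
    have hopen : IsOpen {x : ℝ | R < |x|} := isOpen_lt continuous_const continuous_abs
    filter_upwards [hopen.mem_nhds hu] with x hx
    exact h.supp x (le_of_lt hx)
  rw [this.deriv_eq]
  simp

/-- `E = 0` identically if `R ≤ 0`. -/
theorem IsEvenTest614.eq_zero_of_nonpos (h : IsEvenTest614 E R) (hR : R ≤ 0) (u : ℝ) : E u = 0 :=
  h.supp u (hR.trans (abs_nonneg u))

/-- Support of the inverse Abel transform: `ρ(c) = 0` for `c > cosh R`. -/
theorem IsEvenTest614.abelInv_eq_zero (h : IsEvenTest614 E R) {c : ℝ} (hc : cosh R < c) :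
    abelInv614 E c = 0 := by
  have h1 : 1 < c := lt_of_le_of_lt (Real.one_le_cosh R) hc
  rw [abelInv614_of_lt h1]
  have : deriv E (arcosh c) = 0 := by
    apply h.deriv_eq_zero
    have hpos : 0 < arcosh c := Real.arcosh_pos h1
    rw [abs_of_pos hpos]
    by_contra hcon
    have hcon' : arcosh c ≤ R := not_lt.1 hcon
    -- arcosh c ≤ R, so c = cosh (arcosh c) ≤ cosh R
    have h2 : cosh (arcosh c) ≤ cosh R := by
      rw [Real.cosh_le_cosh, abs_of_pos hpos]
      exact hcon'.trans (le_abs_self R)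
    rw [Real.cosh_arcosh h1.le] at h2
    linarith
  rw [this, smul_zero]

/-- `c ↦ E (arcosh c)` has derivative `E'(arcosh c) / √(c² - 1)` at `c > 1`. -/
theorem IsEvenTest614.hasDerivAt_comp_arcosh (h : IsEvenTest614 E R) {c : ℝ} (hc : 1 < c) :
    HasDerivAt (fun x => E (arcosh x)) ((√(c ^ 2 - 1))⁻¹ • deriv E (arcosh c)) c := by
  have h1 : HasDerivAt arcosh (√(c ^ 2 - 1))⁻¹ c := Real.hasDerivAt_arcosh hc
  have h2 : HasDerivAt E (deriv E (arcosh c)) (arcosh c) := (h.differentiable _).hasDerivAt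
  exact h2.scomp c h1

theorem IsEvenTest614.integrableOn_abelInv (h : IsEvenTest614 E R) (y : ℝ) :
    IntegrableOn (abelInv614 E) (Ioi y) := by
  have hc := h.continuous_abelInv
  have h1 : IntegrableOn (abelInv614 E) (Ioc y (max y (cosh R))) :=
    (hc.integrableOn_Icc (a := y) (b := max y (cosh R))).mono_set Ioc_subset_Icc_self
  have h2 : IntegrableOn (abelInv614 E) (Ioi (max y (cosh R))) := by
    have : ∀ x ∈ Ioi (max y (cosh R)), abelInv614 E x = (fun _ => (0 : ℂ)) x := by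
      intro x hx
      exact h.abelInv_eq_zero (lt_of_le_of_lt (le_max_right _ _) hx)
    exact (integrableOn_zero).congr_fun (fun x hx => (this x hx).symm) measurableSet_Ioi
  have := h1.union h2
  rwa [Ioc_union_Ioi_eq_Ioi (le_max_left _ _)] at this

/-- **Abel inversion**, `c`-form: `2π ∫_y^∞ ρ(c) dc = E(arcosh y)` for `y ≥ 1`. -/
theorem IsEvenTest614.abel_integral (h : IsEvenTest614 E R) {y : ℝ} (hy : 1 ≤ y) :
    (2 * π) • ∫ c in Ioi y, abelInv614 E c = E (arcosh y) := by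
  have hF : ∀ x ∈ Ioi y, HasDerivAt (fun x => (-(2 * π)⁻¹ : ℝ) • E (arcosh x))
      (abelInv614 E x) x := by
    intro x hx
    have hx1 : 1 < x := lt_of_le_of_lt hy hx
    have := (h.hasDerivAt_comp_arcosh hx1).const_smul (-(2 * π)⁻¹ : ℝ)
    rw [abelInv614_of_lt hx1]
    refine HasDerivAt.congr_deriv this ?_
    rw [smul_smul]
    congr 1
    rw [mul_inv]
    ring
  have hcont : ContinuousWithinAt (fun x => (-(2 * π)⁻¹ : ℝ) • E (arcosh x)) (Ici y) y := by
    have h1 : ContinuousWithinAt arcosh (Ici y) y :=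
      (Real.continuousOn_arcosh y hy).mono (Ici_subset_Ici.2 hy)
    have h2 : ContinuousWithinAt (fun x => E (arcosh x)) (Ici y) y :=
      (h.differentiable.continuous.continuousAt).comp_continuousWithinAt h1
    exact h2.const_smul (-(2 * π)⁻¹ : ℝ)
  have hlim : Tendsto (fun x => (-(2 * π)⁻¹ : ℝ) • E (arcosh x)) atTop (𝓝 0) := by
    apply tendsto_const_nhds.congr'
    filter_upwards [eventually_gt_atTop (cosh R), eventually_gt_atTop 1] with x hx hx1
    have hpos : 0 < arcosh x := Real.arcosh_pos hx1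
    have : E (arcosh x) = 0 := by
      apply h.supp
      rw [abs_of_pos hpos]
      by_contra hcon
      have hcon' : arcosh x < R := not_le.1 hcon
      have h2 : cosh (arcosh x) ≤ cosh R := by
        rw [Real.cosh_le_cosh, abs_of_pos hpos]
        exact hcon'.le.trans (le_abs_self R)
      rw [Real.cosh_arcosh hx1.le] at h2
      linarith
    rw [this, smul_zero]
  have := integral_Ioi_of_hasDerivAt_of_tendsto hcont hF (h.integrableOn_abelInv y) hlim
  rw [this, zero_sub, ← neg_smul, smul_smul]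
  have hpi : (2 * π) * (-(-(2 * π)⁻¹)) = 1 := by
    have : (2 * π) ≠ 0 := by positivity
    field_simp
  rw [neg_neg] at hpi ⊢
  rw [mul_inv_cancel₀ (by positivity), one_smul]

/-- **Abel inversion**, `u`-form: the Abel transform of `ρ = abelInv614 E` is `E`:
`2π ∫_{cosh u}^∞ ρ(c) dc = E(u)`. -/
theorem IsEvenTest614.abel_transform (h : IsEvenTest614 E R) (u : ℝ) :
    (2 * π) • ∫ c in Ioi (cosh u), abelInv614 E c = E u := by
  rw [h.abel_integral (Real.one_le_cosh u)]
  rw [← Real.cosh_abs, Real.arcosh_cosh (abs_nonneg u)]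
  rcases abs_choice u with hu | hu
  · rw [hu]
  · rw [hu, h.even]

theorem IsEvenTest614.hasCompactSupport (h : IsEvenTest614 E R) : HasCompactSupport E := by
  apply HasCompactSupport.of_support_subset_isCompact (isCompact_Icc (a := -|R|) (b := |R|))
  intro u hu
  rw [Function.mem_support] at hu
  rw [mem_Icc, ← abs_le]
  by_contra hcon
  have : |R| < |u| := not_le.1 hcon
  exact hu (h.supp u ((le_abs_self R).trans this.le))

theorem IsEvenTest614.integrable (h : IsEvenTest614 E R) : Integrable E :=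
  h.differentiable.continuous.integrable_of_hasCompactSupport h.hasCompactSupport

theorem IsEvenTest614.integrable_id_smul_deriv (h : IsEvenTest614 E R) :
    Integrable (fun r : ℝ => r • deriv E r) := by
  apply Continuous.integrable_of_hasCompactSupport
  · exact continuous_id.smul h.continuous_deriv
  · exact HasCompactSupport.smul_left (f := fun r : ℝ => r) (h.hasCompactSupport.deriv)

/-- Integration by parts: `∫_0^∞ r E'(r) dr = - ∫_0^∞ E(r) dr`. -/
theorem IsEvenTest614.integral_id_smul_deriv (h : IsEvenTest614 E R) :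
    ∫ r in Ioi (0 : ℝ), r • deriv E r = - ∫ r in Ioi (0 : ℝ), E r := by
  have hG : ∀ x ∈ Ici (0 : ℝ), HasDerivAt (fun r : ℝ => r • E r) (E x + x • deriv E x) x := by
    intro x _
    have h1 : HasDerivAt (fun r : ℝ => r) 1 x := hasDerivAt_id x
    have h2 : HasDerivAt E (deriv E x) x := (h.differentiable x).hasDerivAt
    have := h1.smul h2
    refine HasDerivAt.congr_deriv this ?_
    simp [add_comm]
  have hint : IntegrableOn (fun x : ℝ => E x + x • deriv E x) (Ioi 0) :=
    (h.integrable.add h.integrable_id_smul_deriv).integrableOn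
  have hlim : Tendsto (fun r : ℝ => r • E r) atTop (𝓝 0) := by
    apply tendsto_const_nhds.congr'
    filter_upwards [eventually_ge_atTop |R|, eventually_ge_atTop 0] with x hx hx0
    have : E x = 0 := h.supp x (by rw [abs_of_nonneg hx0]; exact (le_abs_self R).trans hx)
    rw [this, smul_zero]
  have := integral_Ioi_of_hasDerivAt_of_tendsto' hG hint hlim
  rw [integral_add h.integrable.integrableOn h.integrable_id_smul_deriv.integrableOn] at this
  simp only [zero_smul, sub_zero] at this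
  exact eq_neg_of_add_eq_zero_right this

/-- Even functions: `∫_ℝ E = 2 ∫_0^∞ E`. -/
theorem IsEvenTest614.integral_eq_two_smul (h : IsEvenTest614 E R) :
    ∫ u, E u = (2 : ℝ) • ∫ r in Ioi (0 : ℝ), E r := by
  rw [← intervalIntegral.integral_Iic_add_Ioi h.integrable.integrableOn
    h.integrable.integrableOn (b := 0)]
  have : ∫ x in Iic (0 : ℝ), E x = ∫ x in Ioi (0 : ℝ), E x := by
    have h1 := integral_comp_neg_Ioi (0 : ℝ) E
    rw [neg_zero] at h1
    rw [← h1]
    exact setIntegral_congr_fun measurableSet_Ioi (fun x _ => h.even x)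
  rw [this, two_smul]

/-- **Spherical transform at parameter `0`** of `ρ = abelInv614 E`:
`4π ∫_0^∞ ρ(cosh r) · (r / sinh r) · sinh² r dr = ∫_ℝ E(u) du`. -/
theorem IsEvenTest614.spherical_zero (h : IsEvenTest614 E R) :
    (4 * π) • ∫ r in Ioi (0 : ℝ), (r * sinh r) • abelInv614 E (cosh r) = ∫ u, E u := by
  have h1 : ∫ r in Ioi (0 : ℝ), (r * sinh r) • abelInv614 E (cosh r)
      = ∫ r in Ioi (0 : ℝ), (-(2 * π)⁻¹ : ℝ) • (r • deriv E r) := by
    refine setIntegral_congr_fun measurableSet_Ioi (fun r hr => ?_)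
    have hr0 : (0 : ℝ) < r := hr
    have hs : sinh r ≠ 0 := (Real.sinh_pos_iff.2 hr0).ne'
    rw [abelInv614_cosh hr0, smul_smul, smul_smul]
    congr 1
    field_simp
  rw [h1, integral_smul, h.integral_id_smul_deriv, h.integral_eq_two_smul, smul_smul, smul_neg,
    ← neg_smul]
  congr 1
  field_simp
  ring

/-- The sum of the squares of the absolute values of the entries (squared Hilbert--Schmidt
norm). -/
noncomputable def hsq614 (g : Matrix (Fin 2) (Fin 2) ℂ) : ℝ :=
  ‖g 0 0‖ ^ 2 + ‖g 0 1‖ ^ 2 + ‖g 1 0‖ ^ 2 + ‖g 1 1‖ ^ 2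

/-- `cosh` of the hyperbolic distance in `ℍ³ = GL₂(ℂ) / ℂˣ U(2)` between the base point and its
image under `g`: `‖g‖²_HS / (2 |det g|)`. -/
noncomputable def chD614 (g : Matrix (Fin 2) (Fin 2) ℂ) : ℝ :=
  hsq614 g / (2 * ‖g.det‖)

theorem hsq614_eq_trace (g : Matrix (Fin 2) (Fin 2) ℂ) :
    ((hsq614 g : ℝ) : ℂ) = (g * gᴴ).trace := by
  simp only [hsq614, Matrix.trace, Matrix.diag, Matrix.mul_apply, Matrix.conjTranspose_apply,
    Fin.sum_univ_two, Complex.star_def, Complex.mul_conj, Complex.normSq_eq_norm_sq]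
  push_cast
  ring

theorem hsq614_mul_unitary_right (g k : Matrix (Fin 2) (Fin 2) ℂ) (hk : k * kᴴ = 1) :
    hsq614 (g * k) = hsq614 g := by
  have h : ((hsq614 (g * k) : ℝ) : ℂ) = ((hsq614 g : ℝ) : ℂ) := by
    rw [hsq614_eq_trace, hsq614_eq_trace, Matrix.conjTranspose_mul]
    rw [show g * k * (kᴴ * gᴴ) = g * (k * kᴴ) * gᴴ by simp only [Matrix.mul_assoc]]
    rw [hk, Matrix.mul_one]
  exact_mod_cast h

theorem hsq614_mul_unitary_left (g k : Matrix (Fin 2) (Fin 2) ℂ) (hk : k * kᴴ = 1) :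
    hsq614 (k * g) = hsq614 g := by
  have hk' : kᴴ * k = 1 := mul_eq_one_comm.1 hk
  have h : ((hsq614 (k * g) : ℝ) : ℂ) = ((hsq614 g : ℝ) : ℂ) := by
    rw [hsq614_eq_trace, hsq614_eq_trace, Matrix.conjTranspose_mul]
    rw [show k * g * (gᴴ * kᴴ) = k * (g * gᴴ * kᴴ) by simp only [Matrix.mul_assoc]]
    rw [Matrix.trace_mul_comm, Matrix.mul_assoc, hk', Matrix.mul_one]
  exact_mod_cast h

theorem norm_det_of_unitary614 (k : Matrix (Fin 2) (Fin 2) ℂ) (hk : k * kᴴ = 1) :
    ‖k.det‖ = 1 := by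
  have h1 : k.det * star k.det = 1 := by
    rw [← Matrix.det_conjTranspose, ← Matrix.det_mul, hk, Matrix.det_one]
  have h2 : ‖k.det‖ * ‖k.det‖ = 1 := by
    have := congrArg norm h1
    rwa [norm_mul, norm_star, norm_one] at this
  nlinarith [norm_nonneg k.det]

theorem chD614_mul_unitary_right (g k : Matrix (Fin 2) (Fin 2) ℂ) (hk : k * kᴴ = 1) :
    chD614 (g * k) = chD614 g := by
  unfold chD614
  rw [hsq614_mul_unitary_right g k hk, Matrix.det_mul, norm_mul, norm_det_of_unitary614 k hk,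
    mul_one]

theorem chD614_mul_unitary_left (g k : Matrix (Fin 2) (Fin 2) ℂ) (hk : k * kᴴ = 1) :
    chD614 (k * g) = chD614 g := by
  unfold chD614
  rw [hsq614_mul_unitary_left g k hk, Matrix.det_mul, norm_mul, norm_det_of_unitary614 k hk,
    one_mul]

theorem chD614_smul (z : ℂ) (hz : z ≠ 0) (g : Matrix (Fin 2) (Fin 2) ℂ) :
    chD614 (z • g) = chD614 g := by
  unfold chD614 hsq614
  rw [Matrix.det_smul]
  simp only [Matrix.smul_apply, smul_eq_mul, norm_mul, Fintype.card_fin, norm_pow]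
  have hz' : ‖z‖ ≠ 0 := norm_ne_zero_iff.2 hz
  by_cases hd : ‖g.det‖ = 0
  · simp [hd]
  · field_simp

/-- `1 ≤ chD614 g` for invertible `g`. -/
theorem one_le_chD614 (g : Matrix (Fin 2) (Fin 2) ℂ) (hg : g.det ≠ 0) : 1 ≤ chD614 g := by
  unfold chD614 hsq614
  have hd : 0 < ‖g.det‖ := norm_pos_iff.2 hg
  rw [le_div_iff₀ (by positivity), one_mul]
  have h1 : ‖g.det‖ ≤ ‖g 0 0‖ * ‖g 1 1‖ + ‖g 0 1‖ * ‖g 1 0‖ := by
    rw [Matrix.det_fin_two]
    calc ‖g 0 0 * g 1 1 - g 0 1 * g 1 0‖ ≤ ‖g 0 0 * g 1 1‖ + ‖g 0 1 * g 1 0‖ := norm_sub_le _ _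
      _ = _ := by rw [norm_mul, norm_mul]
  nlinarith [sq_nonneg (‖g 0 0‖ - ‖g 1 1‖), sq_nonneg (‖g 0 1‖ - ‖g 1 0‖)]

/-- The value of `chD614` on the upper triangular matrix `n(x) diag(t₁, t₂)`. -/
theorem chD614_upper (x t₁ t₂ : ℂ) (h1 : t₁ ≠ 0) (h2 : t₂ ≠ 0) :
    chD614 (!![1, x; 0, 1] * !![t₁, 0; 0, t₂])
      = cosh (Real.log ‖t₁‖ - Real.log ‖t₂‖) + (‖t₂‖ / (2 * ‖t₁‖)) * ‖x‖ ^ 2 := by
  have n1 : 0 < ‖t₁‖ := norm_pos_iff.2 h1
  have n2 : 0 < ‖t₂‖ := norm_pos_iff.2 h2
  have hm : (!![1, x; 0, 1] * !![t₁, 0; 0, t₂] : Matrix (Fin 2) (Fin 2) ℂ)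
      = !![t₁, x * t₂; 0, t₂] := by
    ext i j; fin_cases i <;> fin_cases j <;> simp [Matrix.mul_apply, Fin.sum_univ_two]
  rw [hm]
  unfold chD614 hsq614
  rw [Matrix.det_fin_two_of]
  simp only [Matrix.of_apply, Matrix.cons_val', Matrix.cons_val_zero, Matrix.cons_val_one,
    Matrix.cons_val_fin_one, mul_zero, sub_zero, norm_mul, norm_zero]
  rw [Real.cosh_eq, Real.exp_sub, Real.exp_log n1, Real.exp_log n2, neg_sub, Real.exp_sub,
    Real.exp_log n1, Real.exp_log n2]
  field_simp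
  ring

/-- **The Abel transform on the group**: for `ρ = abelInv614 E` the integral of the radial
function `g ↦ ρ(chD614 g)` over the unipotent radical through `diag(t₁, t₂)` is
`δ(t)^{1/2} E(u)`, `δ(t)^{1/2} = |t₁| / |t₂|`, `u = log |t₁| - log |t₂|`. -/
theorem IsEvenTest614.abel_unipotent {E : ℝ → ℂ} {R : ℝ} (h : IsEvenTest614 E R)
    (t₁ t₂ : ℂ) (h1 : t₁ ≠ 0) (h2 : t₂ ≠ 0) :
    ∫ x : ℂ, abelInv614 E (chD614 (!![1, x; 0, 1] * !![t₁, 0; 0, t₂]))
      = (‖t₁‖ / ‖t₂‖) • E (Real.log ‖t₁‖ - Real.log ‖t₂‖) := by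
  have n1 : 0 < ‖t₁‖ := norm_pos_iff.2 h1
  have n2 : 0 < ‖t₂‖ := norm_pos_iff.2 h2
  simp_rw [chD614_upper _ t₁ t₂ h1 h2]
  rw [integral_complex_affine_sq614 (abelInv614 E) _ (by positivity : 0 < ‖t₂‖ / (2 * ‖t₁‖))]
  rw [← h.abel_transform (Real.log ‖t₁‖ - Real.log ‖t₂‖), smul_smul]
  congr 1
  field_simp

end Fermat.Agent.LT.T3.H614
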